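import Fermat.Agent.JugendtraumField.Scalar
import Fermat.Agent.Density.Places

/-!
# Frobenius elements of `ℚ` fixing the field of definition

An automorphism of `ℚ̄` fixing `K` which is a Frobenius element at a prime over `q`, at which the
curve has good reduction, is a Frobenius place of degree one of every level prime to `q`, always
with the same trace.
-/

set_option autoImplicit false
set_option linter.style.haveILetI false
set_option linter.unusedSectionVars false

noncomputable section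

namespace FA.JugendtraumField

open WeierstrassCurve NumberField FA.IsogenyNF FA.Local FA.Frob FA.HasseBound FA.Deform
open FA.ClassNumberOne (xP yP)
open scoped WeierstrassCurve.Affine

local notation "Qb" => AlgebraicClosure ℚ
local notation "GQ" => AlgebraicClosure ℚ ≃ₐ[ℚ] AlgebraicClosure ℚ

/-- An integer prime to `q` is a unit over `q`. -/
theorem valuation_natCast_of_not_dvd {A : ValuationSubring Qb} {q : ℕ} (hq : q.Prime)
    (hA : A.LiesOverPrime q) {m : ℕ} (hm : ¬ q ∣ m) : A.valuation (m : Qb) = 1 := by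
  have hint : ∀ z : ℤ, A.valuation (z : Qb) ≤ 1 := fun z =>
    (A.valuation_le_one_iff _).2 (intCast_mem A z)
  refine le_antisymm (by exact_mod_cast hint m) (not_lt.1 fun hlt => ?_)
  obtain ⟨x, y, hxy⟩ : IsCoprime (q : ℤ) (m : ℤ) := ((hq.coprime_iff_not_dvd).2 hm).cast
  have h1 : (x : Qb) * (q : Qb) + (y : Qb) * (m : Qb) = 1 := by
    exact_mod_cast congrArg (Int.cast : ℤ → Qb) hxy
  have hsmall : ∀ (z : ℤ) (k : Qb), A.valuation k < 1 → A.valuation ((z : Qb) * k) < 1 :=
    fun z k hk => by rw [map_mul]; exact lt_of_le_of_lt (mul_le_of_le_one_left' (hint z)) hk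
  have := A.valuation.map_add_lt (hsmall x _ (A.mem_nonunits_iff.1 hA)) (hsmall y _ hlt)
  rw [h1, map_one] at this
  exact lt_irrefl _ this

variable {K : Type} [Field K] [NumberField K] [Algebra K Qb] [Algebra.IsAlgebraic K Qb]
  (W : WeierstrassCurve K) [W.IsElliptic]

/-- **Good reduction outside finitely many primes.** -/
theorem exists_good : ∃ m : ℕ, m ≠ 0 ∧ ∀ q : ℕ, q.Prime → ¬ q ∣ m →
    ∀ A : ValuationSubring Qb, A.LiesOverPrime q →
      IntCoeff A.valuation (W.baseChange Qb).toAffine ∧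
        A.valuation (W.baseChange Qb).toAffine.Δ = 1 := by
  classical
  obtain ⟨m, hm0, hm⟩ := exists_integral_multiples (A := ℤ) (K := ℚ) (L := K)
    {W.a₁, W.a₂, W.a₃, W.a₄, W.a₆, W.Δ⁻¹}
  refine ⟨m.natAbs, Int.natAbs_ne_zero.2 hm0, fun q hq hqm A hA => ?_⟩
  have key : ∀ c ∈ ({W.a₁, W.a₂, W.a₃, W.a₄, W.a₆, W.Δ⁻¹} : Finset K),
      A.valuation (algebraMap K Qb c) ≤ 1 := fun c hc => by
    have hi : IsIntegral ℤ (algebraMap K Qb (m • c)) :=
      map_isIntegral_int (algebraMap K Qb) (hm c hc)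
    have h1 : A.valuation (algebraMap K Qb (m • c)) ≤ 1 :=
      (A.valuation_le_one_iff _).2 (zbar_mem_valuationSubring A ⟨_, hi⟩)
    have hvm : A.valuation (m : Qb) = 1 := by
      have h := valuation_natCast_of_not_dvd hq hA hqm
      have e := Int.natAbs_eq m
      generalize m.natAbs = k at h e
      rcases e with rfl | rfl <;> simp [h]
    rwa [zsmul_eq_mul, map_mul, map_intCast, map_mul, hvm, one_mul] at h1
  refine ⟨⟨key _ (by simp), key _ (by simp), key _ (by simp), key _ (by simp), key _ (by simp)⟩, ?_⟩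
  show A.valuation (W.baseChange Qb).Δ = 1
  rw [WeierstrassCurve.baseChange, map_Δ]
  have h1 : A.valuation (algebraMap K Qb W.Δ) ≤ 1 :=
    (A.valuation_le_one_iff _).2 (by
      rw [← map_Δ]
      have hI : ∀ c ∈ ({W.a₁, W.a₂, W.a₃, W.a₄, W.a₆} : Finset K),
          algebraMap K Qb c ∈ A := fun c hc =>
        (A.valuation_le_one_iff _).1 (key c (by
          simp only [Finset.mem_insert, Finset.mem_singleton] at hc ⊢; tauto))
      let V : WeierstrassCurve A := ⟨⟨_, hI W.a₁ (by simp)⟩, ⟨_, hI W.a₂ (by simp)⟩,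
        ⟨_, hI W.a₃ (by simp)⟩, ⟨_, hI W.a₄ (by simp)⟩, ⟨_, hI W.a₆ (by simp)⟩⟩
      rw [show W.map (algebraMap K Qb) = V.map A.subtype from rfl, map_Δ]
      exact V.Δ.2)
  refine le_antisymm h1 ?_
  have h2 := key W.Δ⁻¹ (by simp)
  rw [map_inv₀, map_inv₀] at h2
  rwa [inv_le_one₀ (A.valuation.pos_iff.2 ((map_ne_zero _).2 W.isUnit_Δ.ne_zero))] at h2

variable {W}

/-- **The Frobenius place of level `N`.** -/
def frobPlace {q : ℕ} (hq : q.Prime) {A : ValuationSubring Qb} (hA : A.LiesOverPrime q) {φ : GQ}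
    (hφ : A.IsFrobeniusAt φ q) {σ : Qb ≃ₐ[K] Qb} (hσ : ∀ x, σ x = φ x)
    (hI : IntCoeff A.valuation (W.baseChange Qb).toAffine)
    (hΔ : A.valuation (W.baseChange Qb).toAffine.Δ = 1) {N : ℕ} (hN : ¬ q ∣ N) :
    FrobPlace W σ N where
  A := A
  l := q
  n := 1
  prime := hq
  charP := FA.Frob.residueField_charP A hq hA
  pos := one_ne_zero
  level := valuation_natCast_of_not_dvd hq hA hN
  int := hI
  good := hΔ
  congr_coef c hc := by
    have hcA : algebraMap K Qb c ∈ A := (A.valuation_le_one_iff _).1 (by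
      simp only [List.mem_cons, List.not_mem_nil, or_false] at hc
      rcases hc with rfl | rfl | rfl | rfl | rfl
      exacts [hI.h₁, hI.h₂, hI.h₃, hI.h₄, hI.h₆])
    have h := A.mem_nonunits_iff.1 (FA.Density.sub_pow_mem_nonunits hφ hcA)
    rwa [← hσ, σ.commutes, A.valuation.map_sub_swap, ← pow_one q] at h
  congr_coord P hP := by
    classical
    suffices hx : A.valuation (xP P) ≤ 1 ∧ A.valuation (yP P) ≤ 1 by
      rw [pow_one, hσ, hσ]
      exact ⟨A.mem_nonunits_iff.1 (FA.Density.sub_pow_mem_nonunits hφ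
          ((A.valuation_le_one_iff _).1 hx.1)),
        A.mem_nonunits_iff.1 (FA.Density.sub_pow_mem_nonunits hφ
          ((A.valuation_le_one_iff _).1 hx.2))⟩
    rcases P with _ | ⟨x, y, h⟩
    · exact ⟨(map_zero A.valuation).trans_le zero_le, (map_zero A.valuation).trans_le zero_le⟩
    suffices hx : A.valuation x ≤ 1 from ⟨hx, le_y_of_le_x hI h.1 hx⟩
    by_contra hx
    have hN0 : N ≠ 0 := fun e => hN (e ▸ dvd_zero q)
    have hE1 : E1 A.valuation (W.baseChange Qb).toAffine (.some x y h) := by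
      rw [e1_some]; exact not_le.1 hx
    have := redCurve_isElliptic hI hΔ
    obtain ⟨p, hp, hpd⟩ := Nat.exists_prime_and_dvd
      (n := addOrderOf (Affine.Point.some x y h : (W.toAffine⁄Qb).Point))
      fun e => Affine.Point.some_ne_zero h (AddMonoid.addOrderOf_eq_one_iff.1 e)
    obtain ⟨m, hm⟩ := hpd
    have hdvd := addOrderOf_dvd_of_nsmul_eq_zero hP
    have hpv : A.valuation (p : Qb) = 1 := valuation_natCast_of_not_dvd hq hA fun hd =>
      hN (hd.trans ((Dvd.intro m hm.symm).trans hdvd))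
    have h0 : m • (Affine.Point.some x y h : (W.toAffine⁄Qb).Point) = 0 :=
      redHom_injOn hI hΔ hp hpv (by rw [← mul_nsmul', ← hm, addOrderOf_nsmul_eq_zero]) (by
        rw [map_nsmul, show redHom hI hΔ (Affine.Point.some x y h) = 0 from
          (redFun_eq_zero_iff hI).2 hE1, nsmul_zero])
    have hpos : 0 < addOrderOf (Affine.Point.some x y h : (W.toAffine⁄Qb).Point) :=
      Nat.pos_of_ne_zero fun e => hN0 (Nat.eq_zero_of_zero_dvd (e ▸ hdvd))
    have hm0 : 0 < m := Nat.pos_of_ne_zero fun e => by rw [hm, e, mul_zero] at hpos; omega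
    have := Nat.le_of_dvd hm0 (addOrderOf_dvd_of_nsmul_eq_zero h0)
    rw [hm] at this
    exact absurd this (not_le.2 ((Nat.lt_mul_iff_one_lt_left hm0).2 hp.one_lt))
  congr_root μ hμ := by
    have hN0 : N ≠ 0 := fun e => hN (e ▸ dvd_zero q)
    rw [pow_one]
    have hμA : μ ∈ A := (A.valuation_le_one_iff _).1 (le_of_eq
      ((pow_eq_one_iff_of_nonneg zero_le hN0).1 (by rw [← map_pow, hμ, map_one])))
    refine eq_of_congr_root hN0 (valuation_natCast_of_not_dvd hq hA hN)
      (by rw [← map_pow, hμ, map_one]) (by rw [← pow_mul, mul_comm, pow_mul, hμ, one_pow]) ?_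
    rw [hσ]
    exact A.mem_nonunits_iff.1 (FA.Density.sub_pow_mem_nonunits hφ hμA)

/-- **The trace at `A`**: the quadratic equation and the scalar congruences at every level prime
to `q`. -/
theorem exists_trace {q : ℕ} (hq : q.Prime) {A : ValuationSubring Qb} (hA : A.LiesOverPrime q)
    {φ : GQ} (hφ : A.IsFrobeniusAt φ q) {σ : Qb ≃ₐ[K] Qb} (hσ : ∀ x, σ x = φ x)
    (hI : IntCoeff A.valuation (W.baseChange Qb).toAffine)
    (hΔ : A.valuation (W.baseChange Qb).toAffine.Δ = 1) :
    ∃ a : ℤ, ∀ N : ℕ, ¬ q ∣ N →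
      (∀ P : (W.toAffine⁄Qb).Point, N • P = 0 → σ • σ • P - a • σ • P + (q : ℤ) • P = 0) ∧
      ∀ c : ℤ, (∀ P : (W.toAffine⁄Qb).Point, N • P = 0 → σ • P = c • P) →
        ((N : ℤ) ∣ 2 * c - a ∧ (N : ℤ) ∣ c ^ 2 - a * c + q) ∧
          (¬ (q : ℤ) ∣ c → (N : ℤ) ^ 2 ∣ c ^ 2 - a * c + q) := by
  classical
  haveI := Fact.mk hq
  haveI := FA.Frob.residueField_charP A hq hA
  haveI := residueField_isAlgClosed A
  haveI := redCurve_isElliptic hI hΔ
  have hfixr : ∀ c : K, algebraMap K Qb c ∈ A → ∀ h : algebraMap K Qb c ∈ A,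
      iterateFrobenius (Res A) q 1 (IsLocalRing.residue A ⟨algebraMap K Qb c, h⟩) =
        IsLocalRing.residue A ⟨algebraMap K Qb c, h⟩ := fun c hc h => by
    rw [iterateFrobenius_def, ← map_pow, residue_eq_iff, pow_one]
    have h' := A.mem_nonunits_iff.1 (FA.Density.sub_pow_mem_nonunits hφ hc)
    rw [← hσ, σ.commutes, A.valuation.map_sub_swap] at h'
    simpa using h'
  have hmem : ∀ {x : Qb}, A.valuation x ≤ 1 → x ∈ A := fun h => (A.valuation_le_one_iff _).1 h
  have hW : (redCurve A (W.baseChange Qb).toAffine hI).map (iterateFrobenius (Res A) q 1) =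
      redCurve A (W.baseChange Qb).toAffine hI := by
    refine WeierstrassCurve.ext ?_ ?_ ?_ ?_ ?_
    · exact hfixr _ (hmem hI.h₁) _
    · exact hfixr _ (hmem hI.h₂) _
    · exact hfixr _ (hmem hI.h₃) _
    · exact hfixr _ (hmem hI.h₄) _
    · exact hfixr _ (hmem hI.h₆) _
  refine ⟨trQ (redCurve A (W.baseChange Qb).toAffine hI) hW, fun N hN => ?_⟩
  let F := frobPlace hq hA hφ hσ hI hΔ hN
  haveI : CharP (Res F.A) F.l := ‹_›
  haveI : Fact F.l.Prime := ⟨hq⟩
  haveI : IsAlgClosed (Res F.A) := residueField_isAlgClosed A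
  haveI : (redCurve F.A (W.baseChange Qb).toAffine F.int).IsElliptic := redCurve_isElliptic hI hΔ
  refine ⟨fun P hP => ?_, fun c hc => ⟨?_, fun hqc => ?_⟩⟩
  · have h := FA.TraceNF.quadratic_trQ W F hW P hP
    simp only [show F.l = q from rfl, show F.n = 1 from rfl, pow_one] at h
    exact h
  · have h := dvd_of_scalar F hW hc
    simp only [show F.l = q from rfl, show F.n = 1 from rfl, pow_one] at h
    exact h
  · have h := sq_dvd_of_scalar F hW (c := c) hqc hc
    simp only [show F.l = q from rfl, show F.n = 1 from rfl, pow_one] at h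
    exact h

end FA.JugendtraumField

end
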