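import Fermat.Agent.IsogenyNF.CMStable
import Fermat.Agent.IsogenyNF.QuotientTransfer
import Fermat.Agent.Root.SummaryPowerResidues

/-!
# The norm equation from complex multiplication

An automorphism commuting with a multiplier of discriminant `D` is `α + k θ` on the points killed
by a prime `r` not dividing an off-diagonal entry of the multiplier, so if it is annihilated by
`X² - a X + q`, and `r ∣ 2 α - a` when `k = 0`, then `(a² - 4 q) D` is a square modulo `r`.  An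
integer which is a square modulo almost every prime is a square.
-/

set_option autoImplicit false
set_option linter.style.haveILetI false
set_option linter.unusedSectionVars false

noncomputable section

namespace FA.JugendtraumField

open WeierstrassCurve FA.Mazur.Wp FA.IsogenyNF
open scoped WeierstrassCurve.Affine

universe u v

variable {K : Type u} [Field K] [CharZero K] {Kb : Type v} [Field Kb] [DecidableEq Kb]
  [Algebra K Kb] [CharZero Kb] [IsAlgClosed Kb] [Algebra.IsAlgebraic K Kb]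

/-- **The square modulo one prime.** -/
theorem exists_sq_eq_mod {W : WeierstrassCurve K} [W.IsElliptic] {φ : Kb →+* ℂ} {L : PeriodPair}
    {hL : (W.baseChange Kb).map φ = latCurve L} {ω : ℂ} {A B C D : ℤ}
    (h1 : ω * L.ω₁ = A * L.ω₁ + B * L.ω₂) (h2 : ω * L.ω₂ = C * L.ω₁ + D * L.ω₂)
    {θ : (W.toAffine⁄Kb).Point →+ (W.toAffine⁄Kb).Point}
    (hθ : ∀ P z, unif L z = toC W φ hL P → toC W φ hL (θ P) = unif L (ω * z))
    {r : ℕ} (hr : r.Prime) (hrB : ¬ (r : ℤ) ∣ B)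
    (f : (W.toAffine⁄Kb).Point →+ (W.toAffine⁄Kb).Point)
    (hf : ∀ P, f (θ P) = θ (f P)) (a q : ℤ)
    (hquad : ∀ P : (W.toAffine⁄Kb).Point, r • P = 0 → f (f P) - a • f P + q • P = 0)
    (hscal : ∀ c : ℤ, (∀ P : (W.toAffine⁄Kb).Point, r • P = 0 → f P = c • P) →
      (r : ℤ) ∣ 2 * c - a ∧ (r : ℤ) ∣ c ^ 2 - a * c + q) :
    ∃ b : ZMod r,
      b ^ 2 = (((a ^ 2 - 4 * q) * ((A + D) ^ 2 - 4 * (A * D - B * C)) : ℤ) : ZMod r) := by
  haveI := Fact.mk hr
  have hrC : (r : ℂ) ≠ 0 := Nat.cast_ne_zero.2 hr.ne_zero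
  have hr0 : (r : ℤ) ≠ 0 := by exact_mod_cast hr.ne_zero
  have hex : ∀ o ∈ L.lattice, ∃ g : (W.toAffine⁄Kb).Point,
      toC W φ hL g = unif L (o / r) ∧ r • g = 0 := fun o ho =>
    exists_of_nsmul_eq_zero (hL := hL) hr.ne_zero (Q := unif L (o / r)) (by
      rw [← natCast_zsmul, ← unif_int_mul, Int.cast_natCast, mul_div_cancel₀ _ hrC,
        unif_of_mem L ho])
  obtain ⟨g₁, hg₁, hk₁⟩ := hex _ L.ω₁_mem_lattice
  obtain ⟨g₂, hg₂, hk₂⟩ := hex _ L.ω₂_mem_lattice
  have hcomb : ∀ i j : ℤ, toC W φ hL (i • g₁ + j • g₂) =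
      unif L ((i : ℂ) * (L.ω₁ / r) + (j : ℂ) * (L.ω₂ / r)) := fun i j => by
    rw [map_add, map_zsmul, map_zsmul, hg₁, hg₂, ← unif_int_mul, ← unif_int_mul, unif_add]
  have hspan : ∀ i j : ℤ, i • g₁ + j • g₂ = 0 ↔ (r : ℤ) ∣ i ∧ (r : ℤ) ∣ j := fun i j => by
    rw [← map_eq_zero_iff (toC W φ hL) (FA.Frob.mapHom_injective φ hL), hcomb, unif_eq_zero_iff,
      show (i : ℂ) * (L.ω₁ / r) + (j : ℂ) * (L.ω₂ / r) = (((i : ℚ) / (r : ℤ) : ℚ) : ℂ) * L.ω₁ +
        (((j : ℚ) / (r : ℤ) : ℚ) : ℂ) * L.ω₂ by push_cast; ring,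
      PeriodPair.mul_ω₁_add_mul_ω₂_mem_lattice,
      Rat.den_div_intCast_eq_one_iff i r hr0, Rat.den_div_intCast_eq_one_iff j r hr0]
  have hkill : ∀ Q : (W.toAffine⁄Kb).Point, r • Q = 0 → ∃ i j : ℤ, Q = i • g₁ + j • g₂ :=
    fun Q hQ => by
    obtain ⟨z, hz⟩ := exists_preimage (hL := hL) Q
    have hmem : (r : ℂ) * z ∈ L.lattice := by
      rw [← unif_eq_zero_iff, ← Int.cast_natCast, unif_int_mul, hz, natCast_zsmul, ← map_nsmul, hQ,
        map_zero]
    obtain ⟨i, j, hij⟩ := PeriodPair.mem_lattice.1 hmem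
    refine ⟨i, j, FA.Frob.mapHom_injective φ hL ?_⟩
    refine hz.symm.trans ((congrArg (unif L) ?_).trans (hcomb i j).symm)
    field_simp
    linear_combination -hij
  have hθ₁ : θ g₁ = A • g₁ + B • g₂ := by
    refine FA.Frob.mapHom_injective φ hL ?_
    refine ((hθ _ _ hg₁.symm).trans (congrArg (unif L) ?_)).trans (hcomb A B).symm
    field_simp
    linear_combination h1
  have hθ₂ : θ g₂ = C • g₁ + D • g₂ := by
    refine FA.Frob.mapHom_injective φ hL ?_
    refine ((hθ _ _ hg₂.symm).trans (congrArg (unif L) ?_)).trans (hcomb C D).symm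
    field_simp
    linear_combination h2
  have hz : ∀ {i j : ℤ}, i • g₁ + j • g₂ = 0 → (i : ZMod r) = 0 ∧ (j : ZMod r) = 0 :=
    fun {i j} h => ⟨(ZMod.intCast_zmod_eq_zero_iff_dvd _ _).2 ((hspan i j).1 h).1,
      (ZMod.intCast_zmod_eq_zero_iff_dvd _ _).2 ((hspan i j).1 h).2⟩
  have hB : (B : ZMod r) ≠ 0 := fun h => hrB ((ZMod.intCast_zmod_eq_zero_iff_dvd _ _).1 h)
  have hmod : ∀ (Q : (W.toAffine⁄Kb).Point), r • Q = 0 → ∀ {x y : ℤ}, (x : ZMod r) = y →
      x • Q = y • Q := fun Q hQ x y hxy => by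
    obtain ⟨w, hw⟩ := (ZMod.intCast_eq_intCast_iff_dvd_sub _ _ _).1 hxy
    rw [show y = x + w * (r : ℤ) by linarith, add_zsmul, mul_zsmul', natCast_zsmul, smul_comm r w Q,
      hQ, zsmul_zero, add_zero]
  obtain ⟨u₁, v₁, huv⟩ := hkill (f g₁) (by rw [← map_nsmul, hk₁, map_zero])
  obtain ⟨u₂, v₂, huv₂⟩ := hkill (f g₂) (by rw [← map_nsmul, hk₂, map_zero])
  obtain ⟨k, hk⟩ := ZMod.intCast_surjective ((v₁ : ZMod r) / (B : ZMod r))
  set α : ℤ := u₁ - k * A with hα
  have hf₁ : f g₁ = α • g₁ + k • θ g₁ := by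
    rw [huv, hθ₁, hmod g₂ hk₂ (x := v₁) (y := k * B)
      (by rw [Int.cast_mul, hk, div_mul_cancel₀ _ hB]), hα]
    module
  have hθ₀ : θ (θ g₁) = (A + D) • θ g₁ - (A * D - B * C) • g₁ := by
    rw [hθ₁, map_add, map_zsmul, map_zsmul, hθ₁, hθ₂]
    module
  obtain ⟨c, hc⟩ := ZMod.intCast_surjective (1 / (B : ZMod r))
  have hg₂' : g₂ = c • (θ g₁ - A • g₁) := by
    rw [hθ₁, add_sub_cancel_left, smul_smul]
    conv_lhs => rw [← one_zsmul g₂]
    exact hmod g₂ hk₂ (by rw [Int.cast_one, Int.cast_mul, hc, div_mul_cancel₀ _ hB])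
  have hf₂ : f g₂ = α • g₂ + k • θ g₂ := by
    rw [hg₂', map_zsmul, map_zsmul, map_sub, map_sub, map_zsmul, map_zsmul, hf, hf₁, map_add,
      map_zsmul, map_zsmul]
    module
  -- the quadratic equation on the first generator
  set t : ℤ := A + D with ht
  set n : ℤ := A * D - B * C with hn
  have he : (α ^ 2 - k ^ 2 * n - a * α + q + (2 * α * k + k ^ 2 * t - a * k) * A) • g₁ +
      ((2 * α * k + k ^ 2 * t - a * k) * B) • g₂ = 0 := by
    have h := hquad g₁ hk₁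
    rw [hf₁, map_add, map_zsmul, map_zsmul, hf, hf₁, map_add, map_zsmul, map_zsmul, hθ₀,
      hθ₁] at h
    rw [← h]
    module
  obtain ⟨e₁, e₂⟩ := hz he
  push_cast at e₁ e₂
  have e₂' := (mul_eq_zero.1 e₂).resolve_right hB
  rw [e₂', zero_mul, add_zero] at e₁
  by_cases hk0 : (k : ZMod r) = 0
  · have hall : ∀ P : (W.toAffine⁄Kb).Point, r • P = 0 → f P = α • P := fun P hP => by
      obtain ⟨i, j, rfl⟩ := hkill P hP
      have hθr : ∀ Q : (W.toAffine⁄Kb).Point, r • Q = 0 → k • θ Q = 0 := fun Q hQ => by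
        rw [hmod (θ Q) (by rw [← map_nsmul, hQ, map_zero]) (x := k) (y := 0) (by simpa using hk0),
          zero_zsmul]
      rw [map_add, map_zsmul, map_zsmul, hf₁, hf₂, hθr _ hk₁, hθr _ hk₂]
      module
    obtain ⟨h2α, hq⟩ := hscal α hall
    rw [← ZMod.intCast_zmod_eq_zero_iff_dvd] at h2α hq
    push_cast at h2α hq
    refine ⟨0, ?_⟩
    push_cast
    linear_combination ((4 : ZMod r) * hq - ((2 : ZMod r) * α - a) * h2α) *
      (((t : ZMod r)) ^ 2 - 4 * (n : ZMod r))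
  · refine ⟨(k : ZMod r) * ((t : ZMod r) ^ 2 - 4 * (n : ZMod r)), ?_⟩
    have hw : (2 : ZMod r) * α + k * t - a = 0 :=
      (mul_eq_zero.1 (show (k : ZMod r) * (2 * α + k * t - a) = 0 by
        linear_combination e₂')).resolve_left hk0
    push_cast
    linear_combination ((4 : ZMod r) * e₁ - ((2 : ZMod r) * α - a - k * t) * hw) *
      ((t : ZMod r) ^ 2 - 4 * (n : ZMod r))

variable {d : ℤ}

/-- **The norm equation.** Let `E` have a multiplier in `ℚ(√d)`. If for almost every prime `r`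
some automorphism fixing `√d` satisfies `X² - a X + q` on the points killed by `r`, with
`r ∣ 2 c - a` and `r ∣ c² - a c + q` if it is the scalar `c` there, then `a² - 4 q = d b²`. -/
theorem exists_normEquation (E : WeierstrassCurve K) [E.IsElliptic] (ψ : K →+* ℂ)
    (hd : Squarefree d)
    (hcm : ∃ L : PeriodPair, L.g₂ = ψ E.c₄ / 12 ∧ L.g₃ = ψ E.c₆ / 216 ∧
      ∃ ω : ℂ, (∀ m : ℤ, ω ≠ m) ∧ (∀ l ∈ L.lattice, ω * l ∈ L.lattice) ∧
        ∃ x y : ℚ, (ω - (x : ℂ)) ^ 2 = (d : ℂ) * (y : ℂ) ^ 2)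
    {s : Kb} (hs : s ^ 2 = (d : Kb)) (a q : ℤ) (S : Finset ℕ)
    (h : ∀ r : ℕ, r.Prime → r ∉ S → ∃ σ : Kb ≃ₐ[K] Kb, σ s = s ∧
      (∀ P : (E.toAffine⁄Kb).Point, r • P = 0 → σ • σ • P - a • σ • P + q • P = 0) ∧
      ∀ c : ℤ, (∀ P : (E.toAffine⁄Kb).Point, r • P = 0 → σ • P = c • P) →
        (r : ℤ) ∣ 2 * c - a ∧ (r : ℤ) ∣ c ^ 2 - a * c + q) :
    ∃ b : ℤ, a ^ 2 - 4 * q = d * b ^ 2 := by
  obtain ⟨L, hg2, hg3, ω, hω, hst, x, y, hxy⟩ := hcm
  letI := ψ.toAlgebra
  let φ : Kb →ₐ[K] ℂ := IsAlgClosed.lift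
  have hψ : ∀ c : K, φ (algebraMap K Kb c) = ψ c := φ.commutes
  obtain ⟨Cv, hC⟩ := exists_variableChange E
  haveI : (shortModel E).IsElliptic := hC ▸ inferInstance
  have hC' : Cv.map (algebraMap K Kb) • E.baseChange Kb = (shortModel E).baseChange Kb := by
    simp only [WeierstrassCurve.baseChange, map_variableChange, hC]
  have hL : ((shortModel E).baseChange Kb).map (φ : Kb →+* ℂ) = latCurve L := by
    ext <;> simp [WeierstrassCurve.baseChange, shortModel, latCurve, hg2, hg3, hψ, map_ofNat] <;>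
      ring
  set e := FA.Frob.vcEquiv _ hC' with he_def
  have he : ∀ σ : Kb ≃ₐ[K] Kb, ∀ P, e (σ • P) = σ • e P := fun σ P => vcEquiv_smul hC' σ P
  obtain ⟨A, B, C, D, h1, h2, hB, hquad, -⟩ := exists_matrix hω hst
  obtain ⟨ω₀, θ, hω₀, heq, hθ⟩ := exists_endomorphism hL hω hst
  -- the multiplier is not real
  have him : ω.im ≠ 0 := fun hi => by
    have hre : ω = (ω.re : ℂ) := Complex.ext (by simp) (by simp [hi])
    have := LinearIndependent.pair_iff.mp L.indep (ω.re - A) (-(B : ℝ)) (by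
      simp only [Complex.real_smul]
      push_cast
      rw [← hre]
      linear_combination h1)
    exact hB (by exact_mod_cast neg_eq_zero.1 this.2)
  set t : ℤ := A + D with ht
  set n : ℤ := A * D - B * C with hn
  have hx : (t : ℚ) = 2 * x := by
    have h0 : (((2 * x - t : ℚ) : ℂ)) * ω = ((x ^ 2 - d * y ^ 2 - n : ℚ) : ℂ) := by
      push_cast
      linear_combination hquad - hxy
    have := congrArg Complex.im h0
    simp [sq, him] at this
    have h' : ((2 * x - t : ℚ) : ℝ) = 0 := by push_cast; linarith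
    have : (2 * x - t : ℚ) = 0 := by exact_mod_cast h'
    linarith
  have hdisc : ((t ^ 2 - 4 * n : ℤ) : ℚ) = (d : ℚ) * (2 * y) ^ 2 := by
    apply (algebraMap ℚ ℂ).injective
    have hx' : (t : ℂ) = 2 * (x : ℂ) := by exact_mod_cast congrArg (Rat.cast : ℚ → ℂ) hx
    simp only [eq_ratCast, Rat.cast_intCast, Rat.cast_mul, Rat.cast_pow, Rat.cast_ofNat]
    push_cast
    linear_combination -4 * hquad + (4 : ℂ) * hxy + ((t : ℂ) + 2 * x - 4 * ω) * hx'
  have hy : y ≠ 0 := fun h0 => him (by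
    rw [h0, Rat.cast_zero, zero_pow two_ne_zero, mul_zero, sq_eq_zero_iff, sub_eq_zero] at hxy
    simp [hxy])
  have hroot : ω₀ ^ 2 - (t : Kb) * ω₀ + (n : Kb) = 0 := (φ : Kb →+* ℂ).injective <| by
    rw [map_add, map_sub, map_pow, map_mul, map_intCast, map_intCast, hω₀, map_zero]
    exact hquad
  have hfix : ∀ σ : Kb ≃ₐ[K] Kb, σ s = s → σ ω₀ = ω₀ := fun σ hσ => by
    have hd2 : (((t ^ 2 - 4 * n : ℤ)) : Kb) = (d : Kb) * (2 * (y : Kb)) ^ 2 := by
      have := congrArg (Rat.cast : ℚ → Kb) hdisc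
      push_cast at this ⊢
      exact this
    have hsq : (2 * ω₀ - (t : Kb)) ^ 2 = (2 * (y : Kb) * s) ^ 2 := by
      push_cast at hd2
      linear_combination 4 * hroot + hd2 - (2 * (y : Kb)) ^ 2 * hs
    have hmap : σ (2 * ω₀ - (t : Kb)) = 2 * ω₀ - (t : Kb) := by
      rcases sq_eq_sq_iff_eq_or_eq_neg.1 hsq with e | e <;> rw [e] <;>
        simp [map_mul, map_neg, map_ofNat, map_ratCast, hσ]
    rw [map_sub, map_mul, map_ofNat, map_intCast, sub_left_inj] at hmap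
    exact mul_left_cancel₀ two_ne_zero hmap
  -- squares modulo almost every prime
  obtain ⟨b₀, hb₀⟩ := (FA.Summary.nthPower_iff two_ne_zero (by norm_num)
      ((a ^ 2 - 4 * q) * (t ^ 2 - 4 * n))).2
    ((S.finite_toSet.union B.natAbs.primeFactors.finite_toSet).subset fun r hr => by
      by_contra hmem
      simp only [Set.mem_union, Finset.mem_coe, not_or] at hmem
      obtain ⟨hrp, hns⟩ := hr
      refine hns ?_
      have hrB : ¬ (r : ℤ) ∣ B := fun hd' => hmem.2 (Nat.mem_primeFactors.2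
        ⟨hrp, Int.natCast_dvd.1 hd', Int.natAbs_ne_zero.2 hB⟩)
      obtain ⟨σ, hσ, hq, hsc⟩ := h r hrp hmem.1
      refine exists_sq_eq_mod h1 h2 hθ hrp hrB (DistribSMul.toAddMonoidHom _ σ)
        (fun P => (heq σ (hfix σ hσ) P).symm) a q (fun P hP => e.injective ?_) fun c hc =>
          hsc c fun P hP => ?_
      · simp only [DistribSMul.toAddMonoidHom_apply, map_add, map_sub, map_zsmul, he, map_zero]
        exact hq _ (by rw [← map_nsmul, hP, map_zero])
      · have := congrArg e (hc (e.symm P) (by rw [← map_nsmul, hP, map_zero]))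
        rwa [DistribSMul.toAddMonoidHom_apply, he, map_zsmul, e.apply_symm_apply] at this)
  have hy2 : (2 * y) ≠ 0 := mul_ne_zero two_ne_zero hy
  have hrat : IsSquare ((((a ^ 2 - 4 * q) * d : ℤ)) : ℚ) := by
    refine ⟨(b₀ : ℚ) / (2 * y), ?_⟩
    have h' := congrArg (Int.cast : ℤ → ℚ) hb₀
    simp only [Int.cast_mul, Int.cast_pow] at h'
    rw [hdisc] at h'
    rw [div_mul_div_comm, eq_div_iff (mul_ne_zero hy2 hy2), Int.cast_mul]
    linear_combination -h'
  obtain ⟨f, hf⟩ := Rat.isSquare_intCast_iff.1 hrat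
  obtain ⟨b, rfl⟩ : d ∣ f :=
    (hd.dvd_pow_iff_dvd two_ne_zero).1 ⟨a ^ 2 - 4 * q, by linear_combination -hf⟩
  exact ⟨b, mul_right_cancel₀ hd.ne_zero (by linear_combination hf)⟩

end FA.JugendtraumField

end
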