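import Fermat.Agent.JugendtraumField.Scalar
import Fermat.Agent.JugendtraumField.Multiplier

/-!
# The norm equation at every place of good reduction

If `K` contains `√d` and the curve has a multiplier in `ℚ(√d)` then `a_v² - 4 N v` is `d` times a
square at every place of good reduction.
-/

set_option autoImplicit false
set_option linter.style.haveILetI false
set_option linter.unusedSectionVars false

noncomputable section

namespace FA.JugendtraumField

open WeierstrassCurve NumberField IsDedekindDomain FA.IsogenyNF FA.Local FA.Frob FA.HasseBound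
  FA.TraceNF
open scoped WeierstrassCurve.Affine

universe u v

variable {K : Type u} [Field K] [NumberField K] {Kb : Type v} [Field Kb] [DecidableEq Kb]
  [Algebra K Kb] [CharZero Kb] [IsAlgClosed Kb] [Algebra.IsAlgebraic K Kb]
  (W₀ : WeierstrassCurve (𝓞 K)) [(W₀.map (algebraMap (𝓞 K) K)).IsElliptic]

local notation "W" => W₀.map (algebraMap (𝓞 K) K)

/-- At a Frobenius place over `v` the curve is fixed by the `q`-power map and the trace of that map
is `a_v`. -/
theorem exists_trQ_eq_frobTrace {σ : Kb ≃ₐ[K] Kb} {N : ℕ} (F : FrobPlace (W) σ N)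
    [CharP (Res F.A) F.l] [Fact F.l.Prime] [IsAlgClosed (Res F.A)]
    [(redCurve F.A ((W).baseChange Kb).toAffine F.int).IsElliptic] [DecidableEq (Res F.A)]
    [DecidableEq (FF (redCurve F.A ((W).baseChange Kb).toAffine F.int))]
    {v : HeightOneSpectrum (𝓞 K)} (hq : F.l ^ F.n = Ideal.absNorm v.asIdeal)
    (hKlt : ∀ x : 𝓞 K, x ∈ v.asIdeal → F.A.valuation (algebraMap K Kb x) < 1) :
    ∃ hW : (redCurve F.A ((W).baseChange Kb).toAffine F.int).map
        (iterateFrobenius (Res F.A) F.l F.n) = redCurve F.A ((W).baseChange Kb).toAffine F.int,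
      trQ (redCurve F.A ((W).baseChange Kb).toAffine F.int) hW = frobTrace W₀ v := by
  classical
  -- the reduction map on the residue field of `v`
  have hmem : ∀ x : 𝓞 K, algebraMap K Kb x ∈ F.A := fun x => by
    by_cases hx : x ∈ v.asIdeal
    · exact (F.A.valuation_le_one_iff _).1 (hKlt x hx).le
    · refine (?_ : algebraMap (𝓞 K) Kb x ∈ F.A)
      have : IsIntegrallyClosedIn F.A.toSubring Kb :=
        inferInstanceAs (IsIntegrallyClosedIn F.A Kb)
      exact Subring.isIntegrallyClosedIn_iff.mp this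
        (((RingOfIntegers.isIntegral x).algebraMap).tower_top)
  let g : 𝓞 K →+* Res F.A := (IsLocalRing.residue F.A).comp
    ((algebraMap K Kb).comp (algebraMap (𝓞 K) K) |>.codRestrict F.A.toSubring hmem)
  let f : 𝓞 K ⧸ v.asIdeal →+* Res F.A := Ideal.Quotient.lift v.asIdeal g fun x hx => by
    show IsLocalRing.residue F.A ⟨algebraMap K Kb x, hmem x⟩ = 0
    rw [IsLocalRing.residue_eq_zero_iff, ← F.A.coe_mem_nonunits_iff, F.A.mem_nonunits_iff]
    exact hKlt x hx
  have := v.isMaximal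
  let _ := Ideal.Quotient.field v.asIdeal
  have : Finite (𝓞 K ⧸ v.asIdeal) := Ideal.finiteQuotientOfFreeOfNeBot _ v.ne_bot
  let _ := Fintype.ofFinite (𝓞 K ⧸ v.asIdeal)
  have hcard : Fintype.card (𝓞 K ⧸ v.asIdeal) = F.l ^ F.n := by
    rw [← Nat.card_eq_fintype_card, hq, Ideal.absNorm_apply]
    rfl
  have hWf : (W₀.map (Ideal.Quotient.mk v.asIdeal)).map f =
      (redCurve F.A ((W).baseChange Kb).toAffine F.int) := by
    rw [WeierstrassCurve.map_map]
    rfl
  have hW : (redCurve F.A ((W).baseChange Kb).toAffine F.int).map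
      (iterateFrobenius (Res F.A) F.l F.n) = (redCurve F.A ((W).baseChange Kb).toAffine F.int) := by
    rw [← hWf, WeierstrassCurve.map_map (f := f)]
    congr 1
    refine RingHom.ext fun a => ?_
    rw [RingHom.comp_apply, iterateFrobenius_def, ← map_pow, ← hcard, FiniteField.pow_card]
  have hker := natCard_point_eq_ker (W₀.map (Ideal.Quotient.mk v.asIdeal)) f hWf
    (qEnd (redCurve F.A ((W).baseChange Kb).toAffine F.int) hW)
    fun x y hxy => by
      have h' := nonsingular_mapHom _ hW hxy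
      simp only [iterateFrobenius_def, ← hcard] at h'
      exact ⟨h', by simp [qEnd, mapHom_some, iterateFrobenius_def, ← hcard]⟩
  refine ⟨hW, ?_⟩
  have h := natCard_ker_sub_qEnd (redCurve F.A ((W).baseChange Kb).toAffine F.int) hW F.pos
    (c := 1) (by exact_mod_cast F.prime.not_dvd_one)
  rw [frobTrace, hker, h, ← hq, Nat.cast_pow]
  ring

/-- **The norm equation at every place of good reduction.** -/
theorem frobTrace_normEquation (ψ : K →+* ℂ) {d : ℤ} (hd : Squarefree d)
    (hcm : ∃ L : PeriodPair, L.g₂ = ψ (W).c₄ / 12 ∧ L.g₃ = ψ (W).c₆ / 216 ∧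
      ∃ ω : ℂ, (∀ m : ℤ, ω ≠ m) ∧ (∀ l ∈ L.lattice, ω * l ∈ L.lattice) ∧
        ∃ x y : ℚ, (ω - (x : ℂ)) ^ 2 = (d : ℂ) * (y : ℂ) ^ 2)
    {s : K} (hs : s ^ 2 = (d : K)) {v : HeightOneSpectrum (𝓞 K)} (hΔ : W₀.Δ ∉ v.asIdeal) :
    ∃ b : ℤ, frobTrace W₀ v ^ 2 - 4 * (Ideal.absNorm v.asIdeal : ℤ) = d * b ^ 2 := by
  classical
  obtain ⟨l, hl, hlv⟩ := FA.Ext.exists_rat_prime_mem v
  refine exists_normEquation (Kb := AlgebraicClosure K) (W) ψ hd hcm
    (s := algebraMap K _ s) (by rw [← map_pow, hs, map_intCast]) _ _ {l} fun r hr hrl => ?_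
  have hrv : (r : 𝓞 K) ∉ v.asIdeal := fun hrv => by
    have hcop : IsCoprime (r : ℤ) (l : ℤ) :=
      ((Nat.coprime_primes hr hl).2 fun e => hrl (Finset.mem_singleton.2 e)).cast
    obtain ⟨x, y, hxy⟩ := hcop
    refine v.isPrime.ne_top ((Ideal.eq_top_iff_one _).2 ?_)
    rw [show (1 : 𝓞 K) = (x : 𝓞 K) * (r : 𝓞 K) + (y : 𝓞 K) * (l : 𝓞 K) by
      exact_mod_cast congrArg (Int.cast : ℤ → 𝓞 K) hxy.symm]
    exact add_mem (v.asIdeal.mul_mem_left _ hrv) (v.asIdeal.mul_mem_left _ hlv)
  have : IsAlgClosure K (AlgebraicClosure K) := ⟨inferInstance, inferInstance⟩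
  have : IsGalois K (AlgebraicClosure K) := IsAlgClosure.isGalois K _
  have := finiteDimensional_levelField (Kb := AlgebraicClosure K) (W) hr.ne_zero
  have := isGalois_levelField (Kb := AlgebraicClosure K) (W) r
  set L := levelField (AlgebraicClosure K) (W) r
  have : FiniteDimensional ℚ L := Module.Finite.trans K L
  have : NumberField L := { }
  obtain ⟨Q, hQ, hQv, τ, hτ⟩ := FA.Chebotarev.exists_isArithFrobAt (L := L) v
  obtain ⟨σ, hσ⟩ := AlgEquiv.restrictNormalHom_surjective (F := K) (K₁ := L)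
    (AlgebraicClosure K) τ
  obtain ⟨F, hq, hKlt⟩ := exists_frobPlace_at W₀ hr.ne_zero hΔ hrv
    (IntermediateField.subset_adjoin K _) hQ hQv hτ hσ
  have := F.charP
  have : Fact F.l.Prime := ⟨F.prime⟩
  have := residueField_isAlgClosed F.A
  have := redCurve_isElliptic F.int F.good
  obtain ⟨hW, htr⟩ := exists_trQ_eq_frobTrace W₀ F hq hKlt
  refine ⟨σ, σ.commutes s, fun P hP => ?_, fun c hc => ?_⟩
  · rw [← htr, ← hq]
    exact_mod_cast quadratic_trQ (W) F hW P hP
  · obtain ⟨h1, h2⟩ := dvd_of_scalar F hW hc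
    rw [← htr, ← hq]
    exact ⟨h1, by exact_mod_cast h2⟩

end FA.JugendtraumField

end
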