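import Fermat.Agent.TraceNF.Place

/-!
# Frobenius elements acting by scalars

At a Frobenius place of level `N` the reduction is injective on the points killed by `N`, so an
automorphism acting on them by a scalar `c` puts them in the kernel of `c - π`: `N` divides
`2 c - a` and `c² - a c + q`, and `N²` divides the latter if `c` is prime to the characteristic.
-/

set_option autoImplicit false
set_option linter.style.haveILetI false
set_option linter.unusedSectionVars false

noncomputable section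

namespace FA.JugendtraumField

open WeierstrassCurve NumberField IsDedekindDomain FA.IsogenyNF FA.Local FA.Frob FA.HasseBound
open FA.ClassNumberOne (xP yP)
open scoped WeierstrassCurve.Affine

universe u v

variable {K : Type u} [Field K] [NumberField K] {Kb : Type v} [Field Kb] [DecidableEq Kb]
  [Algebra K Kb] [CharZero Kb] [IsAlgClosed Kb] [Algebra.IsAlgebraic K Kb]
  {W : WeierstrassCurve K} [W.IsElliptic] {σ : Kb ≃ₐ[K] Kb} {N : ℕ} (F : FrobPlace W σ N)

/-- The reduction is injective on the points killed by `N`. -/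
theorem red_injective [DecidableEq (Res F.A)]
    [(redCurve F.A (W.baseChange Kb).toAffine F.int).IsElliptic]
    {R : (W.toAffine⁄Kb).Point} (hR : N • R = 0) (h : redHom F.int F.good R = 0) : R = 0 := by
  by_contra hne
  obtain ⟨p, hp, hpd⟩ := Nat.exists_prime_and_dvd (n := addOrderOf R)
    fun h => hne (AddMonoid.addOrderOf_eq_one_iff.1 h)
  obtain ⟨m, hm⟩ := hpd
  have hdvd := addOrderOf_dvd_of_nsmul_eq_zero hR
  have h0 : m • R = 0 := redHom_injOn F.int F.good hp
    (F.level_of_dvd ((Dvd.intro m hm.symm).trans hdvd))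
    (by rw [← mul_nsmul', ← hm, addOrderOf_nsmul_eq_zero])
    (by rw [map_nsmul, h, nsmul_zero])
  have hN : N ≠ 0 := fun h => by simpa [h] using F.level
  have hpos : 0 < addOrderOf R :=
    Nat.pos_of_ne_zero fun h => hN (Nat.eq_zero_of_zero_dvd (h ▸ hdvd))
  have hm0 : 0 < m := Nat.pos_of_ne_zero fun h => by rw [hm, h, mul_zero] at hpos; omega
  have := Nat.le_of_dvd hm0 (addOrderOf_dvd_of_nsmul_eq_zero h0)
  rw [hm] at this
  exact absurd this (not_le.2 ((Nat.lt_mul_iff_one_lt_left hm0).2 hp.one_lt))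

variable [CharP (Res F.A) F.l] [Fact F.l.Prime] [IsAlgClosed (Res F.A)]
  [(redCurve F.A (W.baseChange Kb).toAffine F.int).IsElliptic] [DecidableEq (Res F.A)]
  [DecidableEq (FF (redCurve F.A (W.baseChange Kb).toAffine F.int))]

/-- The automorphism reduces to the `q`-power map on the points killed by `N`. -/
theorem red_smul
    (hW : (redCurve F.A (W.baseChange Kb).toAffine F.int).map
        (iterateFrobenius (Res F.A) F.l F.n) = redCurve F.A (W.baseChange Kb).toAffine F.int)
    {R : (W.toAffine⁄Kb).Point} (hR : N • R = 0) :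
    redHom F.int F.good (σ • R) =
      qEnd (redCurve F.A (W.baseChange Kb).toAffine F.int) hW (redHom F.int F.good R) := by
  rcases R with _ | ⟨x, y, h⟩
  · exact (congrArg (redHom F.int F.good) (smul_zero σ)).trans (map_zero _) |>.trans
      (map_zero (qEnd _ hW)).symm
  have hx : x ∈ F.A := by
    by_contra hx
    refine Affine.Point.some_ne_zero h (red_injective F hR ?_)
    rw [redHom_apply, redFun_eq_zero_iff, e1_some]
    exact not_le.1 fun h1 => hx ((F.A.valuation_le_one_iff x).1 h1)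
  obtain ⟨hxc, hyc⟩ := F.congr_coord _ hR
  change F.A.valuation (σ x - x ^ F.l ^ F.n) < 1 at hxc
  change F.A.valuation (σ y - y ^ F.l ^ F.n) < 1 at hyc
  obtain ⟨h', he⟩ := smul_some (σ := σ) W h
  rw [he]
  have hy := y_mem F.int h.1 hx
  have hσx : σ x ∈ F.A := by
    have := add_mem ((F.A.valuation_le_one_iff _).1 hxc.le) (pow_mem hx (F.l ^ F.n))
    rwa [sub_add_cancel] at this
  obtain ⟨k₁, e₁⟩ := redFun_of_mem F.int h hx
  obtain ⟨k₂, e₂⟩ := redFun_of_mem F.int h' hσx
  rw [redHom_apply, redHom_apply, e₁, e₂, qEnd, mapHom_some]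
  simp only [Affine.Point.some.injEq, iterateFrobenius_def]
  refine ⟨?_, ?_⟩
  · rw [resOf, resOf, dif_pos hσx, dif_pos hx, ← map_pow, residue_eq_iff]
    simpa using hxc
  · rw [resOf, resOf, dif_pos (y_mem F.int h'.1 hσx), dif_pos hy, ← map_pow, residue_eq_iff]
    simpa using hyc

/-- **An automorphism acting by the scalar `c` on the points killed by `N`**: if `c` is prime to
the characteristic, `N²` divides `c² - a c + q`. -/
theorem sq_dvd_of_scalar
    (hW : (redCurve F.A (W.baseChange Kb).toAffine F.int).map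
        (iterateFrobenius (Res F.A) F.l F.n) = redCurve F.A (W.baseChange Kb).toAffine F.int)
    {c : ℤ} (hc : ¬ (F.l : ℤ) ∣ c)
    (h : ∀ R : (W.toAffine⁄Kb).Point, N • R = 0 → σ • R = c • R) :
    (N : ℤ) ^ 2 ∣ c ^ 2 - trQ (redCurve F.A (W.baseChange Kb).toAffine F.int) hW * c +
      (F.l : ℤ) ^ F.n := by
  have hN : N ≠ 0 := fun h => by simpa [h] using F.level
  rw [← natCard_ker_sub_qEnd _ hW F.pos hc, ← Nat.cast_pow, Int.natCast_dvd_natCast]
  let r : ((nsmulAddMonoidHom N : (W.toAffine⁄Kb).Point →+ _).ker) →+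
      (redCurve F.A (W.baseChange Kb).toAffine F.int).toAffine.Point :=
    (redHom F.int F.good).comp (nsmulAddMonoidHom N : (W.toAffine⁄Kb).Point →+ _).ker.subtype
  have hr : Function.Injective r := (injective_iff_map_eq_zero r).mpr fun R hR =>
    Subtype.ext (red_injective F R.2 hR)
  have hcard : Nat.card r.range = N ^ 2 :=
    (Nat.card_congr (AddMonoidHom.ofInjective hr).toEquiv).symm.trans
      (FA.EC.natCard_nsmul_eq_zero (W.map (algebraMap K Kb)) (Nat.cast_ne_zero.2 hN))
  rw [← hcard]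
  refine AddSubgroup.card_dvd_of_le ?_
  rintro _ ⟨R, rfl⟩
  simp only [AddMonoidHom.mem_ker, AddMonoidHom.sub_apply, AddMonoidHom.coe_smul, Pi.smul_apply,
    AddMonoidHom.id_apply, r, AddMonoidHom.comp_apply, AddSubgroup.coe_subtype]
  rw [← red_smul F hW R.2, h _ R.2, map_zsmul, sub_self]

/-- The level is prime to the characteristic. -/
theorem isCoprime_level : IsCoprime (N : ℤ) (F.l : ℤ) := by
  refine ((Nat.prime_iff_prime_int.1 F.prime).coprime_iff_not_dvd.2 fun hd => ?_).symm
  have hl : F.A.valuation (F.l : Kb) = 1 := F.level_of_dvd (Int.natCast_dvd_natCast.1 hd)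
  have h0 : F.A.valuation (F.l : Kb) < 1 := by
    refine lt_of_le_of_ne ((F.A.valuation_le_one_iff _).2 (natCast_mem F.A _)) fun h1 => ?_
    have hu : IsUnit ((F.l : F.A)) := (FA.Frob.valuation_eq_one_iff F.A _).1 (by simpa using h1)
    have := hu.map (IsLocalRing.residue F.A)
    rw [map_natCast, CharP.cast_eq_zero] at this
    exact not_isUnit_zero this
  rw [hl] at h0
  exact lt_irrefl _ h0

/-- **An automorphism acting by the scalar `c`**: `a` is `2 c` and `q` is `c²` modulo `N`. -/
theorem dvd_of_scalar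
    (hW : (redCurve F.A (W.baseChange Kb).toAffine F.int).map
        (iterateFrobenius (Res F.A) F.l F.n) = redCurve F.A (W.baseChange Kb).toAffine F.int)
    {c : ℤ} (h : ∀ R : (W.toAffine⁄Kb).Point, N • R = 0 → σ • R = c • R) :
    (N : ℤ) ∣ 2 * c - trQ (redCurve F.A (W.baseChange Kb).toAffine F.int) hW ∧
      (N : ℤ) ∣ c ^ 2 - trQ (redCurve F.A (W.baseChange Kb).toAffine F.int) hW * c +
        (F.l : ℤ) ^ F.n := by
  have hN : (N : ℤ) ≠ 0 := Int.natCast_ne_zero.2 fun h => by simpa [h] using F.level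
  have hcop := isCoprime_level F
  have hlN : ¬ (F.l : ℤ) ∣ (N : ℤ) :=
    (Nat.prime_iff_prime_int.1 F.prime).coprime_iff_not_dvd.1 hcop.symm
  obtain ⟨e, he, hel⟩ : ∃ e : ℤ, (N : ℤ) ∣ c - e ∧ ¬ (F.l : ℤ) ∣ e := by
    by_cases hd : (F.l : ℤ) ∣ c
    · exact ⟨c + N, ⟨-1, by ring⟩, fun h' => hlN ((Int.dvd_add_right hd).1 h')⟩
    · exact ⟨c, ⟨0, by ring⟩, hd⟩
  have hs : ∀ m : ℤ, (N : ℤ) ∣ c - m →
      ∀ R : (W.toAffine⁄Kb).Point, N • R = 0 → σ • R = m • R := fun m ⟨k, hk⟩ R hR => by
    rw [h R hR, show c = m + k * (N : ℤ) by linarith, add_zsmul, mul_zsmul', natCast_zsmul,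
      smul_comm N k R, hR, zsmul_zero, add_zero]
  obtain ⟨u, hu⟩ := sq_dvd_of_scalar F hW hel (hs e he)
  obtain ⟨v, hv⟩ := sq_dvd_of_scalar F hW (c := e + F.l * N)
    (fun h' => hel ((Int.dvd_add_left (dvd_mul_right _ _)).1 h'))
    (hs _ (by obtain ⟨k, hk⟩ := he; exact ⟨k - F.l, by linear_combination hk⟩))
  set a := trQ (redCurve F.A (W.baseChange Kb).toAffine F.int) hW
  have h1 : (F.l : ℤ) * (2 * e - a) = N * (v - u - F.l * F.l) :=
    mul_left_cancel₀ hN (by linear_combination hv - hu)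
  obtain ⟨w, hw⟩ := hcop.dvd_of_dvd_mul_left ⟨_, h1⟩
  obtain ⟨k, hk⟩ := he
  refine ⟨⟨w + 2 * k, by linear_combination hw + 2 * hk⟩,
    ⟨N * u + k * (c + e - a), by linear_combination hu + (c + e - a) * hk⟩⟩

end FA.JugendtraumField

end
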