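import Fermat.Agent.JugendtraumField.Multiplier
import Fermat.Agent.JugendtraumField.Local
import Fermat.Agent.Jugendtraum.Ray
import Fermat.Agent.Root.SummaryArtinReciprocity
import Fermat.Agent.HeckeTorus.Ray
import Fermat.Agent.Chebotarev.Relative
import Fermat.Agent.OpenImageAll.Traces
import Fermat.Agent.Jugendtraum.Main

/-!
# Kronecker's Jugendtraum over a field of definition

Let `E` over a number field `F` have a multiplier in `K = ℚ(√d)`.  A finite abelian extension of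
`K` has by Artin reciprocity a modulus dividing some `n`, and an automorphism fixing `F K (E[n])`
is a Frobenius element at some `q`; then `n² ∣ q + 1 - a`, `n ∣ a - 2` and `a² - 4 q = d b²`, so the
primes over `q` have generators congruent to `1` modulo `n`, and the automorphism is trivial on the
extension.
-/

set_option autoImplicit false
set_option linter.style.haveILetI false
set_option linter.unusedSectionVars false

noncomputable section

open WeierstrassCurve NumberField IsDedekindDomain FA.IsogenyNF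
open FA.Chebotarev (natCard_quotient_of_forall_pow exists_isFrobPair_restrict isOpen_ker_restrict)
open FA.Density (IsFrobPair exists_unramified)
open FA.ClassNumberOne (xP yP)
open scoped WeierstrassCurve.Affine Classical Pointwise

local notation "Qb" => AlgebraicClosure ℚ
local notation "GQ" => AlgebraicClosure ℚ ≃ₐ[ℚ] AlgebraicClosure ℚ

namespace FA.JugendtraumField

/-- **Every finite abelian extension of `ℚ(√d)` lies in a field of torsion points over `F`.** -/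
theorem exists_level (F : IntermediateField ℚ Qb) [FiniteDimensional ℚ F] (E : WeierstrassCurve F)
    [E.IsElliptic] (ψ : F →+* ℂ) {d : ℤ} (hd : Squarefree d) (hd0 : d < 0)
    (hcm : ∃ L : PeriodPair, L.g₂ = ψ E.c₄ / 12 ∧ L.g₃ = ψ E.c₆ / 216 ∧
      ∃ ω : ℂ, (∀ m : ℤ, ω ≠ m) ∧ (∀ l ∈ L.lattice, ω * l ∈ L.lattice) ∧
        ∃ x y : ℚ, (ω - (x : ℂ)) ^ 2 = (d : ℂ) * (y : ℂ) ^ 2)
    {s : Qb} (hs : s ^ 2 = (d : Qb)) (L : IntermediateField ℚ Qb) [FiniteDimensional ℚ L]
    [IsGalois ℚ L] (hsL : s ∈ L)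
    (hcomm : ∀ σ τ : GQ, σ s = s → τ s = s → ∀ x ∈ L, (σ * τ * σ⁻¹ * τ⁻¹) x = x) :
    ∃ n : ℕ, 0 < n ∧ ∀ σ : GQ, σ s = s → (∀ z ∈ F, σ z = z) →
      (∀ P : (E.toAffine⁄Qb).Point, n • P = 0 → σ (xP P) = xP P ∧ σ (yP P) = yP P) →
      ∀ x ∈ L, σ x = x := by
  haveI : IsGalois ℚ Qb := FA.EC.isGalois_algebraicClosure
  haveI : Algebra.IsAlgebraic F Qb := Algebra.IsAlgebraic.tower_top (K := ℚ) F
  haveI : NumberField F := { }
  set K : IntermediateField ℚ Qb := IntermediateField.adjoin ℚ {s} with hKdef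
  have hsK : s ∈ K := IntermediateField.mem_adjoin_simple_self ℚ s
  have hK := FA.Jugendtraum.finrank_adjoin_sqrt hd0 hs
  haveI : FiniteDimensional ℚ K := Module.finite_of_finrank_pos (by rw [hK]; exact two_pos)
  haveI : NumberField K := { }
  haveI : NumberField L := { }
  haveI : Algebra.IsQuadraticExtension ℚ K := { finrank_eq_two' := hK }
  have hle : K ≤ L := IntermediateField.adjoin_simple_le_iff.mpr hsL
  letI : Algebra K L := (IntermediateField.inclusion hle).toRingHom.toAlgebra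
  haveI : IsScalarTower ℚ K L := IsScalarTower.of_algebraMap_eq fun _ => rfl
  haveI : IsGalois K L := IsGalois.tower_top_of_isGalois ℚ K L
  set sK : K := ⟨s, hsK⟩ with hsKdef
  have hsK2 : sK ^ 2 = (d : K) := Subtype.ext (by simpa [hsKdef] using hs)
  set π : GQ →* (L ≃ₐ[ℚ] L) := AlgEquiv.restrictNormalHom L with hπdef
  have hπ : Function.Surjective π := AlgEquiv.restrictNormalHom_surjective (F := ℚ) (K₁ := L) Qb
  have hval : ∀ (g : GQ) (x : L), ((π g x : L) : Qb) = g x :=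
    fun g x => AlgEquiv.restrictNormal_commutes g L x
  -- the Galois group over `K` is commutative
  have hab : ∀ g g' : L ≃ₐ[K] L, g * g' = g' * g := fun g g' => by
    obtain ⟨σ, hσ⟩ := hπ (g.restrictScalars ℚ)
    obtain ⟨τ, hτ⟩ := hπ (g'.restrictScalars ℚ)
    have hfix : ∀ (u : GQ) (k : L ≃ₐ[K] L), π u = k.restrictScalars ℚ → u s = s := fun u k hu => by
      have h1 := hval u (algebraMap K L sK)
      rw [hu, AlgEquiv.restrictScalars_apply, k.commutes] at h1
      exact h1.symm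
    have hc : π (σ * τ * σ⁻¹ * τ⁻¹) = 1 := AlgEquiv.ext fun x => Subtype.ext
      ((hval _ x).trans (hcomm σ τ (hfix σ g hσ) (hfix τ g' hτ) x x.2))
    rw [map_mul, map_mul, map_mul, map_inv, map_inv, hσ, hτ, ← commutatorElement_def,
      commutatorElement_eq_one_iff_mul_comm] at hc
    exact AlgEquiv.restrictScalars_injective ℚ hc
  obtain ⟨𝔪, h𝔪, -, ω, -, -, hω⟩ := FA.Summary.artin_reciprocity K L hab
  set n := Ideal.absNorm 𝔪 with hn
  have hn0 : n ≠ 0 := Ideal.absNorm_eq_zero_iff.not.mpr h𝔪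
  have hn𝔪 : (n : 𝓞 K) ∈ 𝔪 := Ideal.absNorm_mem 𝔪
  refine ⟨n, Nat.pos_of_ne_zero hn0, fun σ hσs hσF hσn => ?_⟩
  suffices hσ1 : π σ = 1 from fun x hx => by
    have h1 := hval σ ⟨x, hx⟩
    rw [hσ1] at h1
    exact h1.symm
  -- Chebotarev
  obtain ⟨m₀, hm₀0, hm₀⟩ := exists_good E
  obtain ⟨m, hm0, hm⟩ := exists_unramified L
  set T : Set Qb := xP '' {P : (E.toAffine⁄Qb).Point | n • P = 0} ∪
    yP '' {P : (E.toAffine⁄Qb).Point | n • P = 0} with hT
  haveI : Finite T := (((finite_nsmul_eq_zero (W := E) hn0).image _).union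
    ((finite_nsmul_eq_zero (W := E) hn0).image _)).to_subtype
  haveI : FiniteDimensional ℚ (IntermediateField.adjoin ℚ T) :=
    IntermediateField.finiteDimensional_adjoin fun z _ => Algebra.IsIntegral.isIntegral z
  set M₀ := F ⊔ L ⊔ IntermediateField.adjoin ℚ T with hM₀
  set M := IntermediateField.normalClosure ℚ M₀ Qb with hM
  haveI : Normal ℚ M := normalClosure.normal ℚ M₀ Qb
  haveI : FiniteDimensional ℚ M := normalClosure.is_finiteDimensional ℚ M₀ Qb
  haveI : IsGalois ℚ M := ⟨⟩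
  have hM0 : M₀ ≤ M := IntermediateField.le_normalClosure M₀
  have hFM : ∀ z ∈ F, z ∈ M := fun z hz => hM0 (le_sup_left (b := IntermediateField.adjoin ℚ T)
    (le_sup_left (b := L) hz))
  have hLM : ∀ z ∈ L, z ∈ M := fun z hz => hM0 (le_sup_left (b := IntermediateField.adjoin ℚ T)
    (le_sup_right (a := F) hz))
  have hTM : ∀ z ∈ T, z ∈ M := fun z hz => hM0 (le_sup_right (a := F ⊔ L)
    (IntermediateField.subset_adjoin ℚ T hz))
  let f : GQ →* (M ≃ₐ[ℚ] M) := AlgEquiv.restrictNormalHom M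
  have hker : IsOpen (f.ker : Set GQ) := isOpen_ker_restrict
  obtain ⟨q, hq, hqS, hF⟩ := FA.OpenImageAll.exists_frobenius_mem_of_mem f hker
    (X := {g | IsConj (f σ) g}) (fun g hg x => hg.trans (isConj_iff.mpr ⟨x, rfl⟩))
    (σ := σ) (IsConj.refl _) (m.divisors ∪ m₀.divisors ∪ n.primeFactors)
  simp only [Finset.mem_union, not_or] at hqS
  obtain ⟨⟨hqm, hqm₀⟩, hqn'⟩ := hqS
  haveI := Fact.mk hq
  have hqn : ¬ q ∣ n := fun hd' => hqn' (Nat.mem_primeFactors.mpr ⟨hq, hd', hn0⟩)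
  obtain ⟨A₀, hA₀⟩ := FA.Deform.exists_liesOverPrime hq
  obtain ⟨φ₀, hφ₀⟩ := FA.Deform.exists_isFrobeniusAt hq hA₀
  obtain ⟨x, hx⟩ := isConj_iff.mp (hF A₀ hA₀ φ₀ hφ₀)
  obtain ⟨g, hg⟩ := AlgEquiv.restrictNormalHom_surjective (F := ℚ) (K₁ := M) Qb x
  set A := g⁻¹ • A₀ with hAdef
  set φ := g⁻¹ * φ₀ * g⁻¹⁻¹ with hφdef
  have hA : A.LiesOverPrime q := FA.Density.liesOverPrime_smul hA₀ g⁻¹
  have hφ : A.IsFrobeniusAt φ q := FA.Density.isFrobeniusAt_smul hφ₀ g⁻¹
  have hfφ : f φ = f σ := by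
    rw [hφdef, inv_inv, map_mul, map_mul, map_inv, show f g = x from hg, ← hx]
    group
  have hagree : ∀ z ∈ M, φ z = σ z := fun z hz => by
    have h1 := AlgEquiv.restrictNormal_commutes φ M ⟨z, hz⟩
    have h2 := AlgEquiv.restrictNormal_commutes σ M ⟨z, hz⟩
    exact h1.symm.trans ((congrArg (fun u : M ≃ₐ[ℚ] M => ((u ⟨z, hz⟩ : M) : Qb)) hfφ).trans h2)
  have hφs : φ s = s := (hagree s (hLM s hsL)).trans hσs
  let φF : Qb ≃ₐ[F] Qb := AlgEquiv.ofRingEquiv (f := φ.toRingEquiv) fun z =>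
    (hagree z (hFM z z.2)).trans (hσF z z.2)
  have hφF : ∀ z, φF z = φ z := fun z => rfl
  have hfix : ∀ P : (E.toAffine⁄Qb).Point, n • P = 0 → φF • P = (1 : ℤ) • P := fun P hP => by
    rw [one_zsmul]
    obtain ⟨hx, hy⟩ := hσn P hP
    have hx' : φF (xP P) = xP P := (hagree _ (hTM _ (Or.inl ⟨P, hP, rfl⟩))).trans hx
    have hy' : φF (yP P) = yP P := (hagree _ (hTM _ (Or.inr ⟨P, hP, rfl⟩))).trans hy
    rcases P with _ | ⟨u, w, h⟩
    · rfl
    obtain ⟨h', e⟩ := FA.Local.smul_some (σ := φF) E h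
    rw [e]
    exact (Affine.Point.some.injEq ..).mpr ⟨hx', hy'⟩
  obtain ⟨hI, hΔ⟩ := hm₀ q hq (fun hd' => hqm₀ (Nat.mem_divisors.mpr ⟨hd', hm₀0⟩)) A hA
  obtain ⟨a, ha⟩ := exists_trace hq hA hφ hφF hI hΔ
  obtain ⟨b, hb⟩ := exists_normEquation E ψ hd hcm hs a q {q} fun r hr hrq => by
    have hqr : ¬ q ∣ r := fun hd' => hrq (Finset.mem_singleton.mpr
      ((Nat.prime_dvd_prime_iff_eq hq hr).mp hd').symm)
    exact ⟨φF, hφs, (ha r hqr).1, fun c hc => ((ha r hqr).2 c hc).1⟩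
  obtain ⟨⟨h2a, -⟩, hsq⟩ := (ha n hqn).2 1 hfix
  have h2 : (n : ℤ) ^ 2 ∣ (q : ℤ) + 1 - a := by
    have h := hsq fun h => hq.one_lt.ne' (Nat.dvd_one.mp (Int.natCast_dvd_natCast.mp h))
    rwa [show (1 : ℤ) ^ 2 - a * 1 + q = q + 1 - a by ring] at h
  have h1 : (n : ℤ) ∣ a - 2 := dvd_sub_comm.mp (by simpa using h2a)
  -- the Frobenius element on `L`
  obtain ⟨P, hP⟩ := exists_isFrobPair_restrict (F := L) hq (fun P hP hqP =>
    hm q P hq hP hqP fun hd' => hqm (Nat.mem_divisors.mpr ⟨hd', hm0⟩)) hA hφ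
  change IsFrobPair q P (π φ) at hP
  have hπφ : π φ = π σ := AlgEquiv.ext fun z => Subtype.ext
    ((hval φ z).trans ((hagree _ (hLM _ z.2)).trans (hval σ z).symm))
  rw [← hπφ]
  have hφK : ∀ y ∈ K, φ y = y := fun y hy => by
    induction hy using IntermediateField.adjoin_induction with
    | mem z hz => rw [Set.mem_singleton_iff.mp hz]; exact hφs
    | algebraMap z => exact AlgEquiv.commutes _ z
    | add z w _ _ hz hw => rw [map_add, hz, hw]
    | inv z _ hz => rw [map_inv₀, hz]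
    | mul z w _ _ hz hw => rw [map_mul, hz, hw]
  let τ : L ≃ₐ[K] L := AlgEquiv.ofRingEquiv (f := (π φ).toRingEquiv) fun y => Subtype.ext (by
    show ((π φ (algebraMap K L y) : L) : Qb) = (y : Qb)
    rw [hval]
    exact hφK y y.2)
  have hτ : ∀ z : L, τ z = π φ z := fun z => rfl
  haveI := hP.isMaximal
  have hmax : (P.under (𝓞 K)).IsMaximal := Ideal.IsMaximal.under (𝓞 K) P
  have hqv : (q : 𝓞 K) ∈ P.under (𝓞 K) := by
    rw [Ideal.mem_comap, map_natCast]; exact hP.mem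
  have hcard : Nat.card (𝓞 K ⧸ P.under (𝓞 K)) = q := by
    refine natCard_quotient_of_forall_pow hq hmax hqv fun y => ?_
    rw [Ideal.mem_comap, map_sub, map_pow]
    have h1 := neg_mem (hP.frob (algebraMap (𝓞 K) (𝓞 L) y))
    rw [neg_sub] at h1
    convert h1 using 2
    exact RingOfIntegers.ext (τ.commutes (y : K)).symm
  -- a generator congruent to one
  obtain ⟨c₀, hc₀⟩ : ∃ c : K ≃ₐ[ℚ] K, c sK = -sK := by
    by_contra hcon
    push Not at hcon
    have hfixed : sK ∈ (⊥ : IntermediateField ℚ K) := by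
      rw [← IsGalois.fixedField_top (F := ℚ) (E := K), IntermediateField.mem_fixedField_iff]
      intro c _
      exact ((sq_eq_sq_iff_eq_or_eq_neg).mp (by
        rw [← map_pow, hsK2, map_intCast])).resolve_right (hcon c)
    obtain ⟨r, hr⟩ := IntermediateField.mem_bot.mp hfixed
    have hsq : r ^ 2 = (d : ℚ) := (algebraMap ℚ K).injective (by
      rw [map_pow, hr, map_intCast]; exact hsK2)
    have : (d : ℚ) < 0 := Int.cast_lt_zero.mpr hd0
    nlinarith [sq_nonneg r]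
  obtain ⟨ρ, hρ, hρ1⟩ := FA.Jugendtraum.exists_ray_generator c₀ hK (s := sK) (a := a) (b := b)
    hsK2 hc₀ hq (by linear_combination -hb) hn0 h1 h2
    hmax.isPrime hqv (by rw [Ideal.absNorm_apply, Submodule.cardQuot_apply]; exact hcard)
  -- Artin reciprocity
  have hρ𝔪 : ρ - 1 ∈ 𝔪 := Ideal.mem_of_dvd 𝔪 hρ1 hn𝔪
  let v : HeightOneSpectrum (𝓞 K) := ⟨P.under (𝓞 K), hmax.isPrime,
    Ring.ne_bot_of_isMaximal_of_not_isField hmax (RingOfIntegers.not_isField _)⟩
  have hv : v.asIdeal ⊔ 𝔪 = ⊤ := by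
    rw [Ideal.eq_top_iff_one]
    have hρv : ρ ∈ v.asIdeal := by
      show ρ ∈ P.under (𝓞 K)
      rw [hρ]; exact Ideal.mem_span_singleton_self ρ
    have := sub_mem (Ideal.mem_sup_left hρv) (Ideal.mem_sup_right (S := v.asIdeal) hρ𝔪)
    rwa [sub_sub_cancel] at this
  let Q : HeightOneSpectrum (𝓞 L) := ⟨P, hP.isMaximal.isPrime,
    Ring.ne_bot_of_isMaximal_of_not_isField hP.isMaximal (RingOfIntegers.not_isField _)⟩
  have hfrob : IsArithFrobAt (𝓞 K) τ Q.asIdeal := fun y => by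
    show _ ∈ P
    rw [hcard]
    exact hP.frob y
  have hclass : FA.Hecke.rayClass h𝔪 ⟨FA.Ext.primeIdeal v, hv⟩ = 1 := by
    refine (FA.HeckeTorus.rayClass_eq_one_iff h𝔪 _).mpr ⟨ρ, ⟨?_, hρ𝔪, fun χ => ?_⟩, hρ.symm⟩
    · rintro rfl
      exact v.ne_bot (hρ.trans (Ideal.span_singleton_eq_bot.mpr rfl))
    · exfalso
      have h1 : χ sK ^ 2 = (d : ℝ) := by rw [← map_pow, hsK2, map_intCast]
      have : (d : ℝ) < 0 := Int.cast_lt_zero.mpr hd0
      nlinarith [sq_nonneg (χ sK)]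
  have hone := hω v hv Q τ rfl hfrob
  rw [hclass, map_one] at hone
  exact AlgEquiv.ext fun z => by rw [← hτ z, ← hone]; rfl

end FA.JugendtraumField

end
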